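/-
S36 ENGINE / leaf AUX (helper160), part 1: the pullback `π^* : J₀(N) → J₀(N r)` along
`β_r = V_r : F_N → F_{N r}` and its commutation with the degeneracy push-forwards at another
prime `q`:

      π^* ∘ α_{q,*} = α_{q,*} ∘ π^*,      π^* ∘ β_{q,*} = β_{q,*} ∘ π^*        (base change)

together with Galois equivariance of `π^*` and `π^* x = 0 ⇒ [F_{N r} : β_r F_N] • x = 0`.

Everything is glue over libraries on main: `S37/H818` (base change identity),
`S37/H155/PullAbstract` (`π_* π^* = deg`), `S29/H801` + `Ribet/H801` (the two norm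
compatibilities `normCompat_bar`, `normCompat_beta_bar`; `alphaPush`, `betaPush`).
-/
import Mathlib
import Fermat.Agent.Ribet.H801.DegBeta
import Fermat.Agent.S37.H155.PullAbstract

set_option autoImplicit false
set_option linter.style.haveILetI false
set_option linter.unusedSectionVars false

noncomputable section

namespace Fermat.Agent.S36.H160

open AlgebraicCurve ModularCurve
open Fermat.Agent.S37.H818 Fermat.Agent.S29.H801 Fermat.Agent.Ribet.H801
open Fermat.Agent.Lib.HI Fermat.Agent.S37.H155 Fermat.Agent.S24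

/-! ### Abstract part -/

section Abstract

variable {K F F₁ G G₁ : Type*} [Field K] [Field F] [Field F₁] [Field G] [Field G₁]
  [Algebra K F] [Algebra K F₁] [Algebra K G] [Algebra K G₁]

/-- `π^* x = 0 ⇒ deg(π) • x = 0`. -/
theorem nsmul_eq_zero_of_pullback_eq_zero [HasPrincipalDivisors K G] (i : F →ₐ[K] G)
    (hi : i.toRingHom.IsIntegral) (hFI : FundamentalIdentityAlong K i hi)
    (hS : SumRamificationInertiaAlong i hi)
    (hfin : FiniteAlong K i) (hN : NormFormulaAlong K i hfin)
    (x : Pic0 K F) (hx : pullbackPic0Along i hi hFI x = 0) :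
    finrankAlong K i • x = 0 := by
  obtain ⟨D, rfl⟩ := Pic0.mk_surjective x
  rw [pullbackPic0Along_mk, mk_eq_zero_iff, coe_pullbackDegZeroAlong] at hx
  have h1 : (finrankAlong K i : ℤ) • (D : Divisor K F) ∈ Divisor.principal (K := K) (F := F) := by
    rw [← pushforwardAlong_pullbackAlong i hi hS]
    exact Divisor.isPrincipal_pushforwardAlong i hi hfin hN hx
  have h2 : finrankAlong K i • Pic0.mk D = Pic0.mk (finrankAlong K i • D) := rfl
  rw [h2, mk_eq_zero_iff]
  have h3 : ((finrankAlong K i • D : Divisor.degZero (K := K) (F := F)) : Divisor K F)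
      = (finrankAlong K i : ℤ) • (D : Divisor K F) := by
    rw [natCast_zsmul]
    rfl
  rw [h3]
  exact h1

variable (a : F →ₐ[K] F₁) (i : F →ₐ[K] G) (a' : G →ₐ[K] G₁) (i₁ : F₁ →ₐ[K] G₁)
  (ha : a.toRingHom.IsIntegral) (hi : i.toRingHom.IsIntegral)
  (ha' : a'.toRingHom.IsIntegral) (hi₁ : i₁.toRingHom.IsIntegral)
  (hsq : i₁.comp a = a'.comp i)

variable [HasPrincipalDivisors K G] [HasPrincipalDivisors K G₁] [HasPrincipalDivisors K F₁]

include hsq in
/-- **Base change on `Pic0`**: `i^* ∘ a_* = a'_* ∘ i₁^*`. -/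
theorem pullbackPic0Along_pushPic0
    (hfin : FiniteAlong K a) (hN : NormFormulaAlong K a hfin)
    (hfin' : FiniteAlong K a') (hN' : NormFormulaAlong K a' hfin')
    (hFIi : FundamentalIdentityAlong K i hi) (hFIi₁ : FundamentalIdentityAlong K i₁ hi₁)
    (hnorm : NormCompat a i a' i₁) (hLG : HasLocalGenerators a ha) (x : Pic0 K F₁) :
    pullbackPic0Along i hi hFIi (pushPic0 a ha hfin hN x) =
      pushPic0 a' ha' hfin' hN' (pullbackPic0Along i₁ hi₁ hFIi₁ x) := by
  obtain ⟨D, rfl⟩ := Pic0.mk_surjective x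
  rw [pushPic0_mk, pullbackPic0Along_mk, pullbackPic0Along_mk, pushPic0_mk]
  refine congrArg Pic0.mk (Subtype.ext ?_)
  rw [coe_pullbackDegZeroAlong, coe_pushDegZero, coe_pushDegZero, coe_pullbackDegZeroAlong]
  exact pullback_pushforward_eq a i a' i₁ ha hi ha' hi₁ hsq hfin hN hfin' hN' hnorm hLG
    (D : Divisor K F₁)

end Abstract

/-! ### Transport of `J₀(N)` along an equality of levels -/

section Cast

/-- Transport of `J₀(N)(ℚ̄)` along an equality of levels. -/
def levelCast {N N' : ℕ} [NeZero N] [NeZero N'] (h : N = N') : JZero N ≃+ JZero N' := by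
  subst h
  exact AddEquiv.refl _

theorem levelCast_smul {N N' : ℕ} [NeZero N] [NeZero N'] (h : N = N')
    (σ : AlgebraicClosure ℚ ≃ₐ[ℚ] AlgebraicClosure ℚ) (x : JZero N) :
    levelCast h (σ • x) = σ • levelCast h x := by
  subst h
  rfl

theorem levelCast_heckeOperatorBar {N N' : ℕ} [NeZero N] [NeZero N'] (h : N = N')
    (ℓ : Nat.Primes) (x : JZero N) :
    levelCast h (heckeOperatorBar N ℓ x) = heckeOperatorBar N' ℓ (levelCast h x) := by
  subst h
  rfl

theorem levelCast_symm_apply {N N' : ℕ} [NeZero N] [NeZero N'] (h : N = N') (x : JZero N) :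
    levelCast h.symm (levelCast h x) = x := by
  subst h
  rfl

end Cast

/-! ### The pullback along `β_r` -/

section Pull

variable (N r : ℕ) [NeZero N] [NeZero r]

/-- `π^* : J₀(N) → J₀(N r)`, pullback of divisor classes along `β_r = V_r : F_N → F_{N r}`. -/
def pullB : JZero N →+ JZero (N * r) :=
  haveI := H864.hasPrincipalDivisors_FF (N * r)
  pullbackPic0Along (heckeBetaBar (AlgebraicClosure ℚ) N r) (H864.heckeBetaBarIntegral N r)
    (H864.fundamentalIdentityAlong_beta N r _)

/-- `π^*` is Galois equivariant. -/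
theorem pullB_smul (σ : AlgebraicClosure ℚ ≃ₐ[ℚ] AlgebraicClosure ℚ) (x : JZero N) :
    pullB N r (σ • x) = σ • pullB N r x := by
  haveI := H864.hasPrincipalDivisors_FF (N * r)
  rw [galois_smul_pic0_def, galois_smul_pic0_def]
  exact pullbackPic0Along_smul _ _ _ (Fermat.Agent.S29.H571.intertwines_heckeBetaBar N r σ) x

theorem sumRamificationInertiaAlong_beta :
    haveI := H864.hasPrincipalDivisors_FF (N * r)
    SumRamificationInertiaAlong (heckeBetaBar (AlgebraicClosure ℚ) N r)
      (H864.heckeBetaBarIntegral N r) := by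
  haveI := H864.hasPrincipalDivisors_FF (N * r)
  unfold SumRamificationInertiaAlong
  letI := algebraAlong (heckeBetaBar (AlgebraicClosure ℚ) N r)
  haveI := isScalarTower_along (heckeBetaBar (AlgebraicClosure ℚ) N r)
  haveI := H864.finiteDimensional_jF N
  haveI := H864.finiteDimensional_beta N r
  haveI : FiniteDimensional (FF N) (FF (N * r)) := H864.finiteAlong_beta N r
  exact H864.sumRamificationInertia (jF N) (H864.transcendental_jF N)
    (heckeBetaBar (AlgebraicClosure ℚ) N r (jF N))
    (H864.transcendental_map _ _ (H864.transcendental_jF N))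

/-- `π^* x = 0 ⇒ (r + 1) • x = 0` for a prime `r ∤ N`. -/
theorem pullB_eq_zero (hr : r.Prime) (hrN : ¬ r ∣ N) (x : JZero N) (hx : pullB N r x = 0) :
    (r + 1) • x = 0 := by
  haveI := H864.hasPrincipalDivisors_FF (N * r)
  have h := nsmul_eq_zero_of_pullback_eq_zero (heckeBetaBar (AlgebraicClosure ℚ) N r)
    (H864.heckeBetaBarIntegral N r) (H864.fundamentalIdentityAlong_beta N r _)
    (sumRamificationInertiaAlong_beta N r) (H864.finiteAlong_beta N r)
    (H864.normFormulaAlong_beta N r _) x hx
  rwa [Fermat.Agent.S37.H218.finrankAlong_heckeBetaBar_of_not_dvd N r hr hrN] at h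

end Pull

/-! ### Base change with the push-forwards at `q` -/

section BaseChange

variable (N q r : ℕ) [NeZero N] [NeZero q] [NeZero r]

/-- `α_{q,*}` at the top level `N q r`, as a push-forward along the retargeted inclusion. -/
def alphaPushTop : JZero (N * q * r) →+ JZero (N * r) :=
  pushPic0 (alphaTo (AlgebraicClosure ℚ) (N * r) q (N * q * r) (Nat.mul_right_comm N r q))
    (alphaTo_integral (AlgebraicClosure ℚ) (Nat.mul_right_comm N r q)
      (H864.heckeAlphaBarIntegral (N * r) q))
    (alphaTo_finite (AlgebraicClosure ℚ) (Nat.mul_right_comm N r q)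
      (H864.finiteAlong_alpha (N * r) q))
    (alphaTo_normFormula (AlgebraicClosure ℚ) (Nat.mul_right_comm N r q)
      (H864.finiteAlong_alpha (N * r) q) (H864.normFormulaAlong_alpha (N * r) q _))

/-- `β_{q,*}` at the top level `N q r`, as a push-forward along the retargeted `V_q`. -/
def betaPushTop : JZero (N * q * r) →+ JZero (N * r) :=
  pushPic0 (betaTo (AlgebraicClosure ℚ) (N * r) q (N * q * r) (Nat.mul_right_comm N r q))
    (betaTo_integral (AlgebraicClosure ℚ) (Nat.mul_right_comm N r q)
      (H864.heckeBetaBarIntegral (N * r) q))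
    (betaTo_finite (AlgebraicClosure ℚ) (Nat.mul_right_comm N r q)
      (H864.finiteAlong_beta (N * r) q))
    (betaTo_normFormula (AlgebraicClosure ℚ) (Nat.mul_right_comm N r q)
      (H864.finiteAlong_beta (N * r) q) (H864.normFormulaAlong_beta (N * r) q _))

theorem pushPic0_alphaTo_eq (M ℓ M' : ℕ) [NeZero M] [NeZero ℓ] [NeZero M'] (h : M * ℓ = M')
    (x : JZero M') :
    pushPic0 (alphaTo (AlgebraicClosure ℚ) M ℓ M' h)
      (alphaTo_integral (AlgebraicClosure ℚ) h (H864.heckeAlphaBarIntegral M ℓ))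
      (alphaTo_finite (AlgebraicClosure ℚ) h (H864.finiteAlong_alpha M ℓ))
      (alphaTo_normFormula (AlgebraicClosure ℚ) h (H864.finiteAlong_alpha M ℓ)
        (H864.normFormulaAlong_alpha M ℓ _)) x
      = alphaPush M ℓ (levelCast h.symm x) := by
  subst h
  rfl

theorem pushPic0_betaTo_eq (M ℓ M' : ℕ) [NeZero M] [NeZero ℓ] [NeZero M'] (h : M * ℓ = M')
    (x : JZero M') :
    pushPic0 (betaTo (AlgebraicClosure ℚ) M ℓ M' h)
      (betaTo_integral (AlgebraicClosure ℚ) h (H864.heckeBetaBarIntegral M ℓ))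
      (betaTo_finite (AlgebraicClosure ℚ) h (H864.finiteAlong_beta M ℓ))
      (betaTo_normFormula (AlgebraicClosure ℚ) h (H864.finiteAlong_beta M ℓ)
        (H864.normFormulaAlong_beta M ℓ _)) x
      = betaPush M ℓ (levelCast h.symm x) := by
  subst h
  rfl

theorem alphaPushTop_eq (x : JZero (N * q * r)) :
    alphaPushTop N q r x
      = alphaPush (N * r) q (levelCast (Nat.mul_right_comm N r q).symm x) :=
  pushPic0_alphaTo_eq (N * r) q (N * q * r) (Nat.mul_right_comm N r q) x

theorem betaPushTop_eq (x : JZero (N * q * r)) :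
    betaPushTop N q r x
      = betaPush (N * r) q (levelCast (Nat.mul_right_comm N r q).symm x) :=
  pushPic0_betaTo_eq (N * r) q (N * q * r) (Nat.mul_right_comm N r q) x

/-- **Base change, `α`**: `π^* (α_{q,*} x) = α_{q,*} (π^* x)`. -/
theorem pullB_alphaPush (hq : q.Prime) (hr : r.Prime) (hne : r ≠ q) (x : JZero (N * q)) :
    pullB N r (alphaPush N q x) = alphaPushTop N q r (pullB (N * q) r x) := by
  haveI := H864.hasPrincipalDivisors_FF (N * q)
  haveI := H864.hasPrincipalDivisors_FF (N * r)
  haveI := H864.hasPrincipalDivisors_FF (N * q * r)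
  exact pullbackPic0Along_pushPic0
    (heckeAlphaBar (AlgebraicClosure ℚ) N q) (heckeBetaBar (AlgebraicClosure ℚ) N r)
    (alphaTo (AlgebraicClosure ℚ) (N * r) q (N * q * r) (Nat.mul_right_comm N r q))
    (heckeBetaBar (AlgebraicClosure ℚ) (N * q) r)
    (H864.heckeAlphaBarIntegral N q) (H864.heckeBetaBarIntegral N r)
    (alphaTo_integral (AlgebraicClosure ℚ) (Nat.mul_right_comm N r q)
      (H864.heckeAlphaBarIntegral (N * r) q))
    (H864.heckeBetaBarIntegral (N * q) r)
    (rel_sq₂ N q r)
    (H864.finiteAlong_alpha N q) (H864.normFormulaAlong_alpha N q _)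
    (alphaTo_finite (AlgebraicClosure ℚ) (Nat.mul_right_comm N r q)
      (H864.finiteAlong_alpha (N * r) q))
    (alphaTo_normFormula (AlgebraicClosure ℚ) (Nat.mul_right_comm N r q)
      (H864.finiteAlong_alpha (N * r) q) (H864.normFormulaAlong_alpha (N * r) q _))
    (H864.fundamentalIdentityAlong_beta N r _) (H864.fundamentalIdentityAlong_beta (N * q) r _)
    (normCompat_bar_to N q r (N * q * r) hr hq hne (Nat.mul_right_comm N r q) rfl)
    (hasLocalGenerators_of_hasPrincipalDivisors _ _) x

/-- **Base change, `β`**: `π^* (β_{q,*} x) = β_{q,*} (π^* x)`. -/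
theorem pullB_betaPush (hq : q.Prime) (hr : r.Prime) (hne : r ≠ q) (x : JZero (N * q)) :
    pullB N r (betaPush N q x) = betaPushTop N q r (pullB (N * q) r x) := by
  haveI := H864.hasPrincipalDivisors_FF (N * q)
  haveI := H864.hasPrincipalDivisors_FF (N * r)
  haveI := H864.hasPrincipalDivisors_FF (N * q * r)
  exact pullbackPic0Along_pushPic0
    (heckeBetaBar (AlgebraicClosure ℚ) N q) (heckeBetaBar (AlgebraicClosure ℚ) N r)
    (betaTo (AlgebraicClosure ℚ) (N * r) q (N * q * r) (Nat.mul_right_comm N r q))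
    (heckeBetaBar (AlgebraicClosure ℚ) (N * q) r)
    (H864.heckeBetaBarIntegral N q) (H864.heckeBetaBarIntegral N r)
    (betaTo_integral (AlgebraicClosure ℚ) (Nat.mul_right_comm N r q)
      (H864.heckeBetaBarIntegral (N * r) q))
    (H864.heckeBetaBarIntegral (N * q) r)
    (rel_BB N q r)
    (H864.finiteAlong_beta N q) (H864.normFormulaAlong_beta N q _)
    (betaTo_finite (AlgebraicClosure ℚ) (Nat.mul_right_comm N r q)
      (H864.finiteAlong_beta (N * r) q))
    (betaTo_normFormula (AlgebraicClosure ℚ) (Nat.mul_right_comm N r q)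
      (H864.finiteAlong_beta (N * r) q) (H864.normFormulaAlong_beta (N * r) q _))
    (H864.fundamentalIdentityAlong_beta N r _) (H864.fundamentalIdentityAlong_beta (N * q) r _)
    (normCompat_beta_bar N q r hq hr hne)
    (hasLocalGenerators_of_hasPrincipalDivisors _ _) x

end BaseChange

end Fermat.Agent.S36.H160

end
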