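/-
S36 ENGINE / leaf AUX (helper160), part 2: NEAT-LEVEL DESCENT of the kernel statement.

`KernelAt N₀ q p A k` : every `p`-power torsion point `x` of `J₀(N₀ q)` which is fixed by the inertia
group `I_A` and killed by both degeneracy push-forwards `α_{q,*}, β_{q,*} : J₀(N₀ q) → J₀(N₀)`
satisfies `p ^ k • x = 0`   (helper336's CLAIM N, for the concrete maps `H801.alphaPush/betaPush`).

* `kernelAt_of_mul`       : `KernelAt (N₀ r) q p A k → KernelAt N₀ q p A (k + (r + 1))`
                             for every prime `r ≠ q`, `r ∤ N₀`  (no condition `p ∤ r + 1`);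
* `exists_kernelAt_of_list`: the same for a list of auxiliary primes;
* `newPartInertia_of_good` : if the kernel statement holds at all levels `N₁` with `Good N₁ q`,
                             and every level can be made good by auxiliary primes, then the
                             engine statement `NewPartInertiaShape` (= `S36.H36.NewPartInertiaStatement`
                             of helper36's chain, verbatim) holds;
* `newPartInertia_of_neat` : instance `Good N₁ q := (∃ r prime, r ≡ 11 mod 12, r ∣ N₁) ∧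
                             (q = 3 → 2 ∣ N₁) ∧ (q = 2 → 3 ∣ N₁)`  (Dirichlet from Mathlib).
-/
import Mathlib
import Fermat.Agent.S36.H160.AuxPull
import Fermat.Prelude.Def_FLTPrelim_Ramification
import Fermat.Prelude.Def_ModularCurve_HeckeModule

set_option autoImplicit false
set_option linter.style.haveILetI false
set_option linter.unusedSectionVars false

noncomputable section

namespace Fermat.Agent.S36.H160

open AlgebraicCurve ModularCurve
open Fermat.Agent.Ribet.H801

/-- **The kernel statement** at level `N₀ * q` (CLAIM N of the S36 norm route) for the concrete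
degeneracy push-forwards. -/
def KernelAt (N₀ q p : ℕ) [NeZero N₀] [NeZero q]
    (A : ValuationSubring (AlgebraicClosure ℚ)) (k : ℕ) : Prop :=
  ∀ x : JZero (N₀ * q), (∃ n : ℕ, p ^ n • x = 0) →
    alphaPush N₀ q x = 0 → betaPush N₀ q x = 0 →
    (∀ τ ∈ A.inertiaSubgroupIn ℚ, τ • x = x) → p ^ k • x = 0

/-! ### Torsion bookkeeping -/

/-- If `z` is killed by `p ^ n` and by `c ≠ 0`, it is killed by `p ^ c`. -/
theorem pow_nsmul_eq_zero_of_nsmul_eq_zero {G : Type*} [AddCommGroup G] {p : ℕ} (hp : p.Prime)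
    {c n : ℕ} (hc : c ≠ 0) (z : G) (h1 : c • z = 0) (h2 : p ^ n • z = 0) : p ^ c • z = 0 := by
  have hd1 : addOrderOf z ∣ c := addOrderOf_dvd_of_nsmul_eq_zero h1
  have hd2 : addOrderOf z ∣ p ^ n := addOrderOf_dvd_of_nsmul_eq_zero h2
  obtain ⟨a, -, ha⟩ := (Nat.dvd_prime_pow hp).mp hd2
  have hle : p ^ a ≤ c := by
    rw [← ha]
    exact Nat.le_of_dvd (Nat.pos_of_ne_zero hc) hd1
  have hac : a ≤ c := by
    have h3 : a < p ^ a := Nat.lt_pow_self hp.one_lt
    omega
  have hd3 : addOrderOf z ∣ p ^ c := by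
    rw [ha]
    exact pow_dvd_pow p hac
  exact addOrderOf_dvd_iff_nsmul_eq_zero.mp hd3

/-! ### One auxiliary prime -/

section One

variable (N₀ q r p : ℕ) [NeZero N₀] [NeZero q] [NeZero r]

/-- **AUX, one prime.**  The kernel statement at level `N₀ r q` implies the kernel statement at
level `N₀ q`. -/
theorem kernelAt_of_mul (hq : q.Prime) (hr : r.Prime) (hne : r ≠ q) (hrN : ¬ r ∣ N₀)
    (hp : p.Prime) (A : ValuationSubring (AlgebraicClosure ℚ)) (k : ℕ)
    (h : KernelAt (N₀ * r) q p A k) : KernelAt N₀ q p A (k + (r + 1)) := by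
  intro x hx hα hβ hI
  obtain ⟨n, hn⟩ := hx
  have hc : N₀ * r * q = N₀ * q * r := Nat.mul_right_comm N₀ r q
  set y : JZero (N₀ * r * q) := levelCast hc.symm (pullB (N₀ * q) r x) with hy
  have hy1 : ∃ n : ℕ, p ^ n • y = 0 := ⟨n, by rw [hy, ← map_nsmul, ← map_nsmul, hn, map_zero,
    map_zero]⟩
  have hy2 : alphaPush (N₀ * r) q y = 0 := by
    rw [hy, ← alphaPushTop_eq, ← pullB_alphaPush N₀ q r hq hr hne, hα, map_zero]
  have hy3 : betaPush (N₀ * r) q y = 0 := by
    rw [hy, ← betaPushTop_eq, ← pullB_betaPush N₀ q r hq hr hne, hβ, map_zero]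
  have hy4 : ∀ τ ∈ A.inertiaSubgroupIn ℚ, τ • y = y := by
    intro τ hτ
    rw [hy, ← levelCast_smul, ← pullB_smul, hI τ hτ]
  have hk := h y hy1 hy2 hy3 hy4
  have hk2 : pullB (N₀ * q) r (p ^ k • x) = 0 := by
    have h1 : levelCast hc.symm (pullB (N₀ * q) r (p ^ k • x)) = 0 := by
      rw [map_nsmul, map_nsmul]
      exact hk
    exact (levelCast hc.symm).injective (by rw [h1, map_zero])
  have hrNq : ¬ r ∣ N₀ * q := by
    intro hd
    rcases (Nat.Prime.dvd_mul hr).mp hd with h1 | h1
    · exact hrN h1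
    · exact hne ((Nat.prime_dvd_prime_iff_eq hr hq).mp h1)
  have hk3 : (r + 1) • (p ^ k • x) = 0 := pullB_eq_zero (N₀ * q) r hr hrNq _ hk2
  have hk4 : p ^ n • (p ^ k • x) = 0 := by
    rw [smul_comm, hn, smul_zero]
  have hk5 := pow_nsmul_eq_zero_of_nsmul_eq_zero hp (Nat.succ_ne_zero r) _ hk3 hk4
  rw [pow_add, mul_comm (p ^ k) (p ^ (r + 1)), mul_smul]
  exact hk5

end One

/-! ### A list of auxiliary primes -/

section List

variable (q p : ℕ) [NeZero q]

theorem kernelAt_cast {N N' : ℕ} [NeZero N] [NeZero N'] (h : N = N')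
    (A : ValuationSubring (AlgebraicClosure ℚ)) (k : ℕ) (hk : KernelAt N q p A k) :
    KernelAt N' q p A k := by
  subst h
  exact hk

/-- **AUX, several primes.** -/
theorem exists_kernelAt_of_list (hq : q.Prime) (hp : p.Prime)
    (A : ValuationSubring (AlgebraicClosure ℚ)) :
    ∀ (L : List ℕ) (N₀ : ℕ) [NeZero N₀], L.Nodup →
      (∀ r ∈ L, r.Prime ∧ r ≠ q ∧ ¬ r ∣ N₀) →
      ∀ (N₁ : ℕ) [NeZero N₁], N₁ = N₀ * L.prod → ∀ k : ℕ, KernelAt N₁ q p A k →
        ∃ k' : ℕ, KernelAt N₀ q p A k' := by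
  intro L
  induction L with
  | nil =>
    intro N₀ _ _ _ N₁ _ hN₁ k hk
    refine ⟨k, kernelAt_cast q p ?_ A k hk⟩
    rw [hN₁, List.prod_nil, mul_one]
  | cons r L ih =>
    intro N₀ _ hnd hL N₁ _ hN₁ k hk
    obtain ⟨hr, hrq, hrN⟩ := hL r List.mem_cons_self
    haveI : NeZero r := ⟨hr.ne_zero⟩
    have hnd' := List.nodup_cons.mp hnd
    have hL' : ∀ r' ∈ L, r'.Prime ∧ r' ≠ q ∧ ¬ r' ∣ N₀ * r := by
      intro r' hr'
      obtain ⟨h1, h2, h3⟩ := hL r' (List.mem_cons_of_mem r hr')
      refine ⟨h1, h2, ?_⟩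
      intro hd
      rcases (Nat.Prime.dvd_mul h1).mp hd with h4 | h4
      · exact h3 h4
      · have : r' = r := (Nat.prime_dvd_prime_iff_eq h1 hr).mp h4
        exact hnd'.1 (this ▸ hr')
    have hN₁' : N₁ = N₀ * r * L.prod := by
      rw [hN₁, List.prod_cons, mul_assoc]
    obtain ⟨k₁, hk₁⟩ := ih (N₀ * r) hnd'.2 hL' N₁ hN₁' k hk
    exact ⟨k₁ + (r + 1), kernelAt_of_mul N₀ q r p hq hr hrq hrN hp A k₁ hk₁⟩

end List

/-! ### The engine statement from the kernel statement at good levels -/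

/-- The engine statement (N) of the S36 chain — VERBATIM the body of
`Fermat.Agent.S36.H36.NewPartInertiaStatement` (helper36, `S36/H36/Mid.lean`). -/
def NewPartInertiaShape : Prop :=
  ∀ (M q : ℕ) [NeZero M] [NeZero (M / q)], q.Prime → M.factorization q = 2 →
    ∃ a b : ModularCurve.JZero M →+ ModularCurve.JZero (M / q),
      (∀ ℓ : Nat.Primes, ¬ (ℓ : ℕ) ∣ M → ∀ x : ModularCurve.JZero M,
        a (ModularCurve.heckeOperatorBar M ℓ x) = ModularCurve.heckeOperatorBar (M / q) ℓ (a x)) ∧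
      (∀ ℓ : Nat.Primes, ¬ (ℓ : ℕ) ∣ M → ∀ x : ModularCurve.JZero M,
        b (ModularCurve.heckeOperatorBar M ℓ x) = ModularCurve.heckeOperatorBar (M / q) ℓ (b x)) ∧
      ∀ p : ℕ, p.Prime → p ≠ q →
        ∀ A : ValuationSubring (AlgebraicClosure ℚ), A.LiesOverPrime q →
          ∃ k : ℕ, ∀ x : ModularCurve.JZero M, (∃ n : ℕ, p ^ n • x = 0) →
            (∀ γ : AlgebraicClosure ℚ ≃ₐ[ℚ] AlgebraicClosure ℚ, a (γ • x) = 0 ∧ b (γ • x) = 0) →
            (∀ τ ∈ A.inertiaSubgroupIn ℚ, τ • x = x) → p ^ k • x = 0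

theorem factorization_list_prod_eq_zero (q : ℕ) (L : List ℕ)
    (hL : ∀ r ∈ L, r.Prime ∧ r ≠ q) : L.prod.factorization q = 0 := by
  induction L with
  | nil => simp
  | cons r L ih =>
    have hr := hL r List.mem_cons_self
    have hL' : ∀ r' ∈ L, r'.Prime ∧ r' ≠ q := fun r' hr' => hL r' (List.mem_cons_of_mem r hr')
    have hne : L.prod ≠ 0 := by
      apply List.prod_ne_zero
      intro h0
      exact (hL' 0 h0).1.ne_zero rfl
    rw [List.prod_cons, Nat.factorization_mul hr.1.ne_zero hne, Finsupp.add_apply, ih hL',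
      add_zero, hr.1.factorization, Finsupp.single_apply, if_neg hr.2]

/-- **AUX, final form.**  `Good` is any property of levels; if every level becomes good after
multiplication by auxiliary primes and the kernel statement holds at good levels, then the
engine statement holds. -/
theorem newPartInertia_of_good (Good : ℕ → ℕ → Prop)
    (haux : ∀ N₀ q : ℕ, N₀ ≠ 0 → q.Prime → N₀.factorization q = 1 →
      ∃ L : List ℕ, L.Nodup ∧ (∀ r ∈ L, r.Prime ∧ r ≠ q ∧ ¬ r ∣ N₀) ∧ Good (N₀ * L.prod) q)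
    (hker : ∀ (N₁ q : ℕ) [NeZero N₁] [NeZero q], q.Prime → N₁.factorization q = 1 →
      Good N₁ q → ∀ p : ℕ, p.Prime → p ≠ q →
        ∀ A : ValuationSubring (AlgebraicClosure ℚ), A.LiesOverPrime q →
          ∃ k : ℕ, KernelAt N₁ q p A k) :
    NewPartInertiaShape := by
  intro M q _ _ hq hMq
  haveI : NeZero q := ⟨hq.ne_zero⟩
  have hqM : q ∣ M := Nat.dvd_of_factorization_pos (by rw [hMq]; exact two_ne_zero)
  have hM : M = M / q * q := (Nat.div_mul_cancel hqM).symm
  have hN₀ : (M / q).factorization q = 1 := by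
    rw [Nat.factorization_div hqM, Finsupp.tsub_apply, hMq, hq.factorization,
      Finsupp.single_eq_same]
  refine ⟨(alphaPush (M / q) q).comp (levelCast hM).toAddMonoidHom,
    (betaPush (M / q) q).comp (levelCast hM).toAddMonoidHom, ?_, ?_, ?_⟩
  · intro ℓ hℓ x
    have hne : (ℓ : ℕ) ≠ q := fun h => hℓ (h ▸ hqM)
    show alphaPush (M / q) q (levelCast hM (heckeOperatorBar M ℓ x))
      = heckeOperatorBar (M / q) ℓ (alphaPush (M / q) q (levelCast hM x))
    rw [levelCast_heckeOperatorBar, alphaPush_heckeOperatorBar (M / q) q hq ℓ hne]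
  · intro ℓ hℓ x
    have hne : (ℓ : ℕ) ≠ q := fun h => hℓ (h ▸ hqM)
    show betaPush (M / q) q (levelCast hM (heckeOperatorBar M ℓ x))
      = heckeOperatorBar (M / q) ℓ (betaPush (M / q) q (levelCast hM x))
    rw [levelCast_heckeOperatorBar, betaPush_heckeOperatorBar (M / q) q hq ℓ hne]
  · intro p hp hpq A hA
    obtain ⟨L, hnd, hL, hgood⟩ := haux (M / q) q (NeZero.ne (M / q)) hq hN₀
    have hLne : L.prod ≠ 0 := by
      apply List.prod_ne_zero
      intro h0
      exact (hL 0 h0).1.ne_zero rfl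
    haveI : NeZero (M / q * L.prod) := ⟨mul_ne_zero (NeZero.ne (M / q)) hLne⟩
    have hfac : (M / q * L.prod).factorization q = 1 := by
      rw [Nat.factorization_mul (NeZero.ne (M / q)) hLne, Finsupp.add_apply, hN₀,
        factorization_list_prod_eq_zero q L (fun r hr => ⟨(hL r hr).1, (hL r hr).2.1⟩)]
    obtain ⟨k, hk⟩ := hker (M / q * L.prod) q hq hfac hgood p hp hpq A hA
    obtain ⟨k', hk'⟩ := exists_kernelAt_of_list q p hq hp A L (M / q) hnd hL
      (M / q * L.prod) rfl k hk
    refine ⟨k', ?_⟩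
    intro x hx hab hI
    obtain ⟨n, hn⟩ := hx
    have h1 : p ^ k' • levelCast hM x = 0 := by
      refine hk' (levelCast hM x) ⟨n, by rw [← map_nsmul, hn, map_zero]⟩ ?_ ?_ ?_
      · have := (hab 1).1
        rwa [one_smul] at this
      · have := (hab 1).2
        rwa [one_smul] at this
      · intro τ hτ
        rw [← levelCast_smul, hI τ hτ]
    have h2 : levelCast hM (p ^ k' • x) = 0 := by
      rw [map_nsmul]
      exact h1
    exact (levelCast hM).injective (by rw [h2, map_zero])

/-- Neat levels: an auxiliary prime `r ≡ 11 mod 12` divides the level (no elliptic points in any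
characteristic `≠ 2, 3, r`), and the level is even if `q = 3`, divisible by `3` if `q = 2`
(the convention of the good-reduction input `A2.Top.H994.GoodRedStatement`). -/
def Neat (N₁ q : ℕ) : Prop :=
  (∃ r : ℕ, r.Prime ∧ r % 12 = 11 ∧ r ≠ q ∧ r ∣ N₁) ∧ (q = 3 → 2 ∣ N₁) ∧ (q = 2 → 3 ∣ N₁)

/-- Every level becomes neat after multiplication by auxiliary primes. -/
theorem exists_neat_list (N₀ q : ℕ) (hN₀ : N₀ ≠ 0) :
    ∃ L : List ℕ, L.Nodup ∧ (∀ r ∈ L, r.Prime ∧ r ≠ q ∧ ¬ r ∣ N₀) ∧ Neat (N₀ * L.prod) q := by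
  classical
  obtain ⟨r, hrgt, hr, hrmod⟩ := Nat.forall_exists_prime_gt_and_modEq (N₀ + q + 3)
    (q := 12) (a := 11) (by norm_num) (by norm_num)
  have hr12 : r % 12 = 11 := hrmod
  have hrq : r ≠ q := by omega
  have hrN : ¬ r ∣ N₀ := fun hd => by
    have := Nat.le_of_dvd (Nat.pos_of_ne_zero hN₀) hd
    omega
  -- the small auxiliary prime, if needed
  by_cases h3 : q = 3 ∧ ¬ 2 ∣ N₀
  · refine ⟨[r, 2], ?_, ?_, ?_⟩
    · simp only [List.nodup_cons, List.mem_singleton, List.not_mem_nil, not_false_eq_true,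
        List.nodup_nil, and_true]
      omega
    · intro r' hr'
      simp only [List.mem_cons, List.not_mem_nil, or_false] at hr'
      rcases hr' with rfl | rfl
      · exact ⟨hr, hrq, hrN⟩
      · exact ⟨Nat.prime_two, by omega, h3.2⟩
    · refine ⟨⟨r, hr, hr12, hrq, ?_⟩, fun _ => ?_, fun h2 => ?_⟩
      · simp only [List.prod_cons, List.prod_nil, mul_one]
        exact Dvd.dvd.mul_left (Dvd.intro _ rfl) N₀
      · simp only [List.prod_cons, List.prod_nil, mul_one]
        exact Dvd.dvd.mul_left (Dvd.intro_left _ rfl) N₀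
      · omega
  by_cases h2 : q = 2 ∧ ¬ 3 ∣ N₀
  · refine ⟨[r, 3], ?_, ?_, ?_⟩
    · simp only [List.nodup_cons, List.mem_singleton, List.not_mem_nil, not_false_eq_true,
        List.nodup_nil, and_true]
      omega
    · intro r' hr'
      simp only [List.mem_cons, List.not_mem_nil, or_false] at hr'
      rcases hr' with rfl | rfl
      · exact ⟨hr, hrq, hrN⟩
      · exact ⟨Nat.prime_three, by omega, h2.2⟩
    · refine ⟨⟨r, hr, hr12, hrq, ?_⟩, fun h => ?_, fun _ => ?_⟩
      · simp only [List.prod_cons, List.prod_nil, mul_one]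
        exact Dvd.dvd.mul_left (Dvd.intro _ rfl) N₀
      · omega
      · simp only [List.prod_cons, List.prod_nil, mul_one]
        exact Dvd.dvd.mul_left (Dvd.intro_left _ rfl) N₀
  · refine ⟨[r], ?_, ?_, ?_⟩
    · simp
    · intro r' hr'
      simp only [List.mem_cons, List.not_mem_nil, or_false] at hr'
      subst hr'
      exact ⟨hr, hrq, hrN⟩
    · refine ⟨⟨r, hr, hr12, hrq, ?_⟩, fun h => ?_, fun h => ?_⟩
      · simp only [List.prod_cons, List.prod_nil, mul_one]
        exact Dvd.intro_left _ rfl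
      · have : 2 ∣ N₀ := by
          by_contra hc
          exact h3 ⟨h, hc⟩
        exact Dvd.dvd.mul_right this _
      · have : 3 ∣ N₀ := by
          by_contra hc
          exact h2 ⟨h, hc⟩
        exact Dvd.dvd.mul_right this _

/-- **The kernel statement at neat levels** (target of the geometric part of the S36 engine). -/
def NeatKernelStatement : Prop :=
  ∀ (N₁ q : ℕ) [NeZero N₁] [NeZero q], q.Prime → N₁.factorization q = 1 → Neat N₁ q →
    ∀ p : ℕ, p.Prime → p ≠ q →
      ∀ A : ValuationSubring (AlgebraicClosure ℚ), A.LiesOverPrime q →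
        ∃ k : ℕ, KernelAt N₁ q p A k

/-- **AUX.**  The kernel statement at neat levels implies the engine statement (N). -/
theorem newPartInertia_of_neat (h : NeatKernelStatement) : NewPartInertiaShape :=
  newPartInertia_of_good Neat
    (fun N₀ q hN₀ _ _ => exists_neat_list N₀ q hN₀)
    (fun N₁ q _ _ hq hfac hgood p hp hpq A hA => h N₁ q hq hfac hgood p hp hpq A hA)

end Fermat.Agent.S36.H160

end
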